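import Fermat.Agent.S15.M1.Star.Defs

/-!
# S15 / M1 / STAR : the constant  `∏_{k ≠ 0} w_k (1 + w_k)/(1 - w_k)³ = N⁻³`, `w_k = e^{2πik/N}`
-/

set_option autoImplicit false

noncomputable section

namespace Fermat.Agent.S15.M1.Star

open Fermat.Agent.S48.WT1

variable (N : ℕ) [NeZero N]

omit [NeZero N] in
theorem Const_prod_eq (n : ℕ) (F : ZMod (n + 1) → ℂ) :
    ∏ k : {k : ZMod (n + 1) // k ≠ 0}, F k.1 =
      ∏ j ∈ Finset.range n, F ((j + 1 : ℕ) : ZMod (n + 1)) := by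
  symm
  have hne : ∀ j ∈ Finset.range n, ((j + 1 : ℕ) : ZMod (n + 1)) ≠ 0 := by
    intro j hj h
    rw [ZMod.natCast_eq_zero_iff] at h
    have := Nat.le_of_dvd (Nat.succ_pos j) h
    have := Finset.mem_range.mp hj
    omega
  refine Finset.prod_bij (fun j hj => (⟨((j + 1 : ℕ) : ZMod (n + 1)), hne j hj⟩ :
    {k : ZMod (n + 1) // k ≠ 0})) (fun _ _ => Finset.mem_univ _) ?_ ?_ (fun _ _ => rfl)
  · intro j hj j' hj' h
    have h1 : ((j + 1 : ℕ) : ZMod (n + 1)) = ((j' + 1 : ℕ) : ZMod (n + 1)) := congrArg Subtype.val h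
    rw [ZMod.natCast_eq_natCast_iff'] at h1
    have := Finset.mem_range.mp hj
    have := Finset.mem_range.mp hj'
    rw [Nat.mod_eq_of_lt (by omega), Nat.mod_eq_of_lt (by omega)] at h1
    omega
  · rintro ⟨k, hk⟩ -
    have hv : k.val ≠ 0 := fun h => hk ((ZMod.val_eq_zero k).mp h)
    have hlt : k.val < n + 1 := ZMod.val_lt k
    refine ⟨k.val - 1, Finset.mem_range.mpr (by omega), Subtype.ext ?_⟩
    show ((k.val - 1 + 1 : ℕ) : ZMod (n + 1)) = k
    rw [Nat.sub_add_cancel (Nat.pos_of_ne_zero hv), ZMod.natCast_zmod_val]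

theorem Const_isPrimitiveRoot : IsPrimitiveRoot (ZMod.stdAddChar (1 : ZMod N) : ℂ) N := by
  have h := ZMod.stdAddChar_coe (N := N) 1
  rw [Int.cast_one] at h
  rw [h]
  have := Complex.isPrimitiveRoot_exp N (NeZero.ne N)
  convert this using 2
  push_cast
  ring

theorem Const_map_sum {ι : Type*} (s : Finset ι) (f : ι → ZMod N) :
    (ZMod.stdAddChar (∑ i ∈ s, f i) : ℂ) = ∏ i ∈ s, ZMod.stdAddChar (f i) := by
  classical
  induction s using Finset.induction_on with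
  | empty => simp [AddChar.map_zero_eq_one]
  | insert a s ha ih => rw [Finset.sum_insert ha, Finset.prod_insert ha, AddChar.map_add_eq_mul, ih]

omit [NeZero N] in
theorem Const_two_mul_eq_zero (hN : Odd N) {x : ZMod N} (h : x + x = 0) : x = 0 := by
  have h2 : IsUnit ((2 : ℕ) : ZMod N) := (ZMod.isUnit_iff_coprime 2 N).mpr (Nat.coprime_two_left.mpr hN)
  have h3 : ((2 : ℕ) : ZMod N) * x = 0 := by
    rw [Nat.cast_two, two_mul]; exact h
  exact (h2.mul_right_eq_zero).mp h3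

/-- `∏_{k ≠ 0} (1 - w_k) = N`.  PROOF: `X^N - 1 = ∏_{k : ZMod N} (X - w_k)` (the `w_k` are the `N`
distinct `N`-th roots of unity: `ZMod.injective_stdAddChar`, `stdAddChar_pow_eq_one`,
`Polynomial.nthRoots`/`IsPrimitiveRoot` API: `ZMod.isPrimitiveRoot_stdAddChar`? or
`IsPrimitiveRoot.pow_sub_one_eq_prod`?), divide by `X - 1` : `∑_{i<N} X^i = ∏_{k ≠ 0} (X - w_k)`, evaluate
at `1`.  (For `N` prime also `Polynomial.cyclotomic_prime`, `Polynomial.eval_one_cyclotomic_prime`.) -/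
theorem prod_one_sub :
    ∏ k : {k : ZMod N // k ≠ 0}, (1 - (ZMod.stdAddChar k.1 : ℂ)) = N := by
  obtain ⟨n, rfl⟩ : ∃ n, N = n + 1 := ⟨N - 1, by have := NeZero.pos N; omega⟩
  rw [Const_prod_eq n fun k => 1 - (ZMod.stdAddChar k : ℂ)]
  have h := (Const_isPrimitiveRoot (n + 1)).prod_one_sub_pow_eq_order
  rw [Nat.cast_add, Nat.cast_one, ← h]
  refine Finset.prod_congr rfl fun j _ => ?_
  rw [← AddChar.map_nsmul_eq_pow, nsmul_eq_mul, mul_one]

/-- `∏_{k ≠ 0} (1 + w_k) = 1` for odd `N`.  PROOF: `(1 + w_k)(1 - w_k) = 1 - w_{2k}`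
(`AddChar.map_add_eq_mul`), `k ↦ 2k` is a permutation of the nonzero classes (`2` is a unit of `ZMod N`),
so `∏ (1 + w_k) * N = N` by `prod_one_sub`. -/
theorem prod_one_add (hN : Odd N) :
    ∏ k : {k : ZMod N // k ≠ 0}, (1 + (ZMod.stdAddChar k.1 : ℂ)) = 1 := by
  let φ : {k : ZMod N // k ≠ 0} → {k : ZMod N // k ≠ 0} := fun k =>
    ⟨k.1 + k.1, fun h => k.2 (Const_two_mul_eq_zero N hN h)⟩
  have hφ : Function.Bijective φ := by
    rw [← Finite.injective_iff_bijective]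
    intro k k' h
    have h1 : k.1 + k.1 = k'.1 + k'.1 := congrArg Subtype.val h
    apply Subtype.ext
    rw [← sub_eq_zero]
    apply Const_two_mul_eq_zero N hN
    linear_combination h1
  have h1 : (∏ k : {k : ZMod N // k ≠ 0}, (1 + (ZMod.stdAddChar k.1 : ℂ))) *
      ∏ k : {k : ZMod N // k ≠ 0}, (1 - (ZMod.stdAddChar k.1 : ℂ)) =
      ∏ k : {k : ZMod N // k ≠ 0}, (1 - (ZMod.stdAddChar k.1 : ℂ)) := by
    rw [← Finset.prod_mul_distrib,
      ← hφ.prod_comp fun k : {k : ZMod N // k ≠ 0} => (1 - (ZMod.stdAddChar k.1 : ℂ))]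
    refine Finset.prod_congr rfl fun k _ => ?_
    show _ = 1 - (ZMod.stdAddChar (k.1 + k.1) : ℂ)
    rw [AddChar.map_add_eq_mul]
    ring
  rw [prod_one_sub] at h1
  have hN0 : (N : ℂ) ≠ 0 := by exact_mod_cast NeZero.ne N
  exact mul_right_cancel₀ hN0 (by rw [h1, one_mul])

/-- `∏_{k ≠ 0} w_k = 1` for odd `N`.  PROOF: `P := ∏ w_k`; the involution `k ↦ -k` gives `P = P⁻¹`...
simpler: `∏ w_k = stdAddChar (∑_{k ≠ 0} k)` (`AddChar.map_sum_eq_prod`) and `∑_{k : ZMod N} k = 0` for odd `N`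
(pair `k` with `-k`: `2 ∑ k = ∑ k + ∑ (-k) = 0`, `2` a unit). -/
theorem prod_stdAddChar (hN : Odd N) :
    ∏ k : {k : ZMod N // k ≠ 0}, (ZMod.stdAddChar k.1 : ℂ) = 1 := by
  let φ : {k : ZMod N // k ≠ 0} → {k : ZMod N // k ≠ 0} := fun k =>
    ⟨-k.1, fun h => k.2 (neg_eq_zero.mp h)⟩
  have hφ : Function.Bijective φ := by
    rw [← Finite.injective_iff_bijective]
    intro k k' h
    have h1 : -k.1 = -k'.1 := congrArg Subtype.val h
    exact Subtype.ext (neg_injective h1)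
  have hS : ∑ k : {k : ZMod N // k ≠ 0}, k.1 = 0 := by
    apply Const_two_mul_eq_zero N hN
    conv_lhs =>
      arg 1
      rw [← hφ.sum_comp fun k : {k : ZMod N // k ≠ 0} => k.1]
    rw [← Finset.sum_add_distrib]
    refine Finset.sum_eq_zero fun k _ => ?_
    show -k.1 + k.1 = 0
    exact neg_add_cancel _
  rw [← Const_map_sum, hS, AddChar.map_zero_eq_one]

theorem prod_Ecl3 (hN : Odd N) :
    ∏ k : {k : ZMod N // k ≠ 0}, Ecl3 (ZMod.stdAddChar k.1) = ((N : ℂ) ^ 3)⁻¹ := by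
  unfold Ecl3
  rw [Finset.prod_div_distrib, Finset.prod_mul_distrib, Finset.prod_pow, prod_one_sub,
    prod_one_add N hN, prod_stdAddChar N hN]
  simp

/-- the constant of STAR. -/
theorem kap_eq (hN : Odd N) : kap N = Ck N 3 ^ (4 * (N - 1)) * ((N : ℂ) ^ 12)⁻¹ := by
  have hcard : (Finset.univ : Finset {k : ZMod N // k ≠ 0}).card = N - 1 := by
    classical
    rw [Finset.card_univ, Fintype.card_subtype_compl, Fintype.card_subtype_eq, ZMod.card]
  unfold kap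
  rw [Finset.prod_congr rfl fun k _ => Zc_three N k.2, Finset.prod_mul_distrib, prod_Ecl3 N hN,
    Finset.prod_const, hcard, mul_pow, ← pow_mul, mul_comm (N - 1) 4, inv_pow, ← pow_mul]

end Fermat.Agent.S15.M1.Star
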