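import Mathlib

/-!
# S15 / M1 / STAR : `SL₂(ℤ) = Γ₀(N) ∪ ⋃_b Γ₀(N) S T^b` for `N` prime   (pure Mathlib)
-/

set_option autoImplicit false

namespace Fermat.Agent.S15.M1.Star

open scoped MatrixGroups

/-- PROOF.  `A = !![a, b; c, d]`, `c ≢ 0 mod N`.  Choose `n : ℤ` with `c n ≡ d mod N`
(`ZMod N` is a field).  `γ := A * T^(-n) * S⁻¹` has lower left entry `-(d - c n)` (or its negative,
compute with `ModularGroup.coe_T_zpow`, `ModularGroup.S`, `Matrix.mul_apply`, `Fin.sum_univ_two`),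
which is `0` in `ZMod N`: `γ ∈ Γ₀(N)` (`CongruenceSubgroup.Gamma0_mem`), and `A = γ * S * T^n`. -/
theorem exists_coset {N : ℕ} (hN : N.Prime) (A : SL(2, ℤ))
    (hA : A ∉ CongruenceSubgroup.Gamma0 N) :
    ∃ γ ∈ CongruenceSubgroup.Gamma0 N, ∃ n : ℤ, A = γ * ModularGroup.S * ModularGroup.T ^ n := by
  have : Fact N.Prime := ⟨hN⟩
  rw [CongruenceSubgroup.Gamma0_mem] at hA
  obtain ⟨n, hn⟩ : ∃ n : ℤ, (n : ZMod N) = ((A 1 1 : ℤ) : ZMod N) * ((A 1 0 : ℤ) : ZMod N)⁻¹ :=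
    ZMod.intCast_surjective _
  refine ⟨A * (ModularGroup.T ^ n)⁻¹ * ModularGroup.S⁻¹, ?_, n, by group⟩
  rw [CongruenceSubgroup.Gamma0_mem]
  have hT : ((ModularGroup.T ^ n)⁻¹ : SL(2, ℤ)) = ModularGroup.T ^ (-n) := (zpow_neg _ _).symm
  rw [hT]
  have h1 : ((A * ModularGroup.T ^ (-n) * ModularGroup.S⁻¹ : SL(2, ℤ)) 1 0 : ℤ)
      = -(A 1 0 * (-n) + A 1 1) := by
    rw [Matrix.SpecialLinearGroup.coe_mul, Matrix.SpecialLinearGroup.coe_mul,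
      ModularGroup.coe_T_zpow, Matrix.SpecialLinearGroup.coe_inv, Matrix.adjugate_fin_two]
    simp [ModularGroup.S, Matrix.mul_apply, Fin.sum_univ_two]
  rw [h1]
  push_cast
  rw [hn]
  field_simp
  ring

end Fermat.Agent.S15.M1.Star
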