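import Fermat.Agent.S15.M1.Star.Defs

/-!
# S15 / M1 / STAR : the function `τ ↦ Δ(Nτ)`
-/

set_option autoImplicit false

noncomputable section

namespace Fermat.Agent.S15.M1.Star

open UpperHalfPlane ModularForm Matrix Filter Topology Complex
open Fermat.Agent.S48 Fermat.Agent.S48.WT1 Fermat.Agent.S24 Fermat.Agent.S48.Full
open scoped MatrixGroups Manifold ModularForm Real

local notation "Δ" => ModularForm.discriminant

variable (N : ℕ) [NeZero N]

/-- PROOF: `CuspForm.discriminant.holo'` composed with `z ↦ N z`.  E.g.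
`UpperHalfPlane.mdifferentiable_iff`: `Δ ∘ ofComplex` is differentiable on `{im > 0}`; the function
`(deltaN N) ∘ ofComplex` coincides there with `(Δ ∘ ofComplex) ∘ (fun w => N * w)`.
(Look at `S24` / `S48/Full/ScaleA.lean` for an existing `mdiff_comp_mulH`-type lemma first.) -/
theorem deltaN_mdiff : MDiff (deltaN N) := by
  have hΔ : MDiff Δ := CuspForm.discriminant.holo'
  rw [UpperHalfPlane.mdifferentiable_iff] at hΔ ⊢
  have hN : (0 : ℝ) < N := by exact_mod_cast Nat.pos_of_ne_zero (NeZero.ne N)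
  have hmaps : Set.MapsTo (fun w : ℂ => (N : ℂ) * w) {z : ℂ | 0 < z.im} {z : ℂ | 0 < z.im} := by
    intro w hw
    simpa using mul_pos hN hw
  have h1 : DifferentiableOn ℂ ((Δ ∘ ofComplex) ∘ (fun w : ℂ => (N : ℂ) * w)) {z : ℂ | 0 < z.im} :=
    hΔ.comp ((differentiable_id.const_mul (N : ℂ)).differentiableOn) hmaps
  refine h1.congr fun w hw => ?_
  have hw' : 0 < ((N : ℂ) * w).im := hmaps hw
  simp only [Function.comp_apply, deltaN]
  congr 1
  apply UpperHalfPlane.ext
  rw [coe_mulH, ofComplex_apply_of_im_pos hw, ofComplex_apply_of_im_pos hw']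

/-- PROOF: `exists_isScale_of_mem_Gamma0 N hA` gives `A'` with `IsScale N A A'`, so
`mulH N (A • z) = A' • mulH N z` (`IsScale.mulH_smul`) and `denom A' (mulH N z) = denom A z`
(`A' 1 0 * (N z) + A' 1 1 = A 1 0 * z + A 1 1`).  Then `SL_slash_apply` and
`levelOne_apply_smul A' (levelOne_disc_slash A')`. -/
theorem deltaN_slash_Gamma0 {A : SL(2, ℤ)} (hA : A ∈ CongruenceSubgroup.Gamma0 N) :
    deltaN N ∣[(12 : ℤ)] A = deltaN N := by
  obtain ⟨A', hs⟩ := exists_isScale_of_mem_Gamma0 N hA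
  funext z
  have hden : denom A' (mulH N z) = denom A z := by
    obtain ⟨-, -, h3, h4⟩ := hs
    have e3 : (A 1 0 : ℂ) = (N : ℂ) * (A' 1 0 : ℂ) := by rw [← h3]; push_cast; rfl
    have e4 : (A' 1 1 : ℂ) = (A 1 1 : ℂ) := by rw [h4]
    simp only [denom, coe_mulH, Matrix.SpecialLinearGroup.coe_GL_coe_matrix,
      Matrix.SpecialLinearGroup.map_apply_coe, RingHom.mapMatrix_apply, Int.coe_castRingHom,
      Matrix.map_apply, Complex.ofReal_intCast]
    rw [e3, e4]
    ring
  rw [ModularForm.SL_slash_apply, deltaN, deltaN, hs.mulH_smul,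
    levelOne_apply_smul A' (levelOne_disc_slash A'), hden, mul_assoc,
    ← zpow_add₀ (denom_ne_zero A z), add_neg_cancel, zpow_zero, mul_one]

/-- PROOF: `mulH N (S • z) = S • divH N z` (both are `-N/z`; `UpperHalfPlane.modular_S_smul`,
`coe_mulH`, `coe_divH`), `Δ (S • w) = Δ w * w ^ 12` (`levelOne_apply_smul S (levelOne_disc_slash S)`,
`denom S w = w`), with `w = z / N`; the slash factor is `denom S z ^ (-12) = z ^ (-12)`. -/
theorem deltaN_slash_S :
    deltaN N ∣[(12 : ℤ)] ModularGroup.S = fun z => ((N : ℂ) ^ 12)⁻¹ * Δ (divH N z) := by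
  funext z
  have hN : (N : ℂ) ≠ 0 := Nat.cast_ne_zero.2 (NeZero.ne N)
  have hz : (z : ℂ) ≠ 0 := UpperHalfPlane.ne_zero z
  have h1 : mulH N (ModularGroup.S • z) = ModularGroup.S • divH N z := by
    rw [ScaleA2_divH_eq, ← mul_smul]
    have hS : (ModularGroup.S * ModularGroup.S) • mulH N (ModularGroup.S • z)
        = mulH N (ModularGroup.S • z) := by
      apply UpperHalfPlane.ext
      rw [mul_smul, UpperHalfPlane.modular_S_smul, UpperHalfPlane.modular_S_smul]
      simp
    rw [hS]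
  have hd : ∀ w : ℍ, denom ModularGroup.S w = (w : ℂ) := by
    intro w
    exact ModularGroup.denom_S w
  rw [ModularForm.SL_slash_apply, deltaN, h1,
    levelOne_apply_smul ModularGroup.S (levelOne_disc_slash ModularGroup.S), hd, hd, coe_divH]
  rw [_root_.zpow_neg]
  have e : ∀ x : ℂ, x ^ (12 : ℤ) = x ^ 12 := fun x => by norm_cast
  rw [e, e, div_pow]
  field_simp

/-- PROOF: `ModularForm.discriminant_eq_q_prod`, `ModularForm.tendsto_atImInfty_tprod_one_sub_eta_q_pow`
as in `WT1.levelOne_quot_tendsto`. -/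
theorem tendsto_delta_div :
    Tendsto (fun z : ℍ => Δ z / cexp (2 * π * Complex.I * z)) atImInfty (𝓝 1) := by
  have h1 := ModularForm.tendsto_atImInfty_tprod_one_sub_eta_q_pow
  refine h1.congr fun z => ?_
  rw [ModularForm.discriminant_eq_q_prod]
  have h2 : Function.Periodic.qParam 1 (z : ℂ) = cexp (2 * π * Complex.I * z) := by
    simp [Function.Periodic.qParam]
  rw [h2, mul_div_cancel_left₀ _ (Complex.exp_ne_zero _)]

/-- `mulH N` tends to `i∞`.  PROOF: `atImInfty = comap im atTop`; `(mulH N z).im = N * z.im`. -/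
theorem tendsto_mulH : Tendsto (mulH N) atImInfty atImInfty := by
  have hN : (0 : ℝ) < N := by exact_mod_cast Nat.pos_of_ne_zero (NeZero.ne N)
  rw [atImInfty, tendsto_comap_iff]
  have h1 : (UpperHalfPlane.im ∘ mulH N) = fun z : ℍ => (N : ℝ) * z.im := by
    funext z
    show ((mulH N z : ℍ) : ℂ).im = _
    rw [coe_mulH]
    simp
  rw [h1]
  exact (tendsto_comap (f := UpperHalfPlane.im) (x := atTop)).const_mul_atTop hN

/-- `divH N` tends to `i∞`.  PROOF: `(divH N z).im = z.im / N`. -/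
theorem tendsto_divH : Tendsto (divH N) atImInfty atImInfty := by
  have hN : (0 : ℝ) < N := by exact_mod_cast Nat.pos_of_ne_zero (NeZero.ne N)
  rw [atImInfty, tendsto_comap_iff]
  have h1 : (UpperHalfPlane.im ∘ divH N) = fun z : ℍ => z.im / (N : ℝ) := by
    funext z
    show ((divH N z : ℍ) : ℂ).im = _
    rw [coe_divH]
    simp [Complex.div_natCast_im]
  rw [h1]
  exact (tendsto_comap (f := UpperHalfPlane.im) (x := atTop)).atTop_div_const hN

/-- PROOF: `tendsto_delta_div.comp (tendsto_mulH N)`; `exp(2πi N z) = (WT1.tq N z)^(N^2)` (`tq_pow`,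
`← Complex.exp_nat_mul`). -/
theorem tendsto_deltaN_div :
    Tendsto (fun z : ℍ => deltaN N z / WT1.tq N z ^ (N ^ 2)) atImInfty (𝓝 1) := by
  refine (tendsto_delta_div.comp (tendsto_mulH N)).congr fun z => ?_
  simp only [Function.comp_apply, deltaN]
  congr 1
  rw [sq, pow_mul, WT1.tq_pow, ← Complex.exp_nat_mul, coe_mulH]
  congr 1
  ring

/-- PROOF: `tendsto_delta_div.comp (tendsto_divH N)`; `exp(2πi z/N) = WT1.tq N z`. -/
theorem tendsto_delta_divH_div :
    Tendsto (fun z : ℍ => Δ (divH N z) / WT1.tq N z) atImInfty (𝓝 1) := by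
  refine (tendsto_delta_div.comp (tendsto_divH N)).congr fun z => ?_
  simp only [Function.comp_apply]
  congr 1
  rw [coe_divH, WT1.tq]
  congr 1
  ring

/-- PROOF: `(tendsto_delta_div).pow N`; `exp(2πi z)^N = (WT1.tq N z)^(N^2)` (`tq_pow`, `← pow_mul`,
`sq`). -/
theorem tendsto_delta_pow_div :
    Tendsto (fun z : ℍ => Δ z ^ N / WT1.tq N z ^ (N ^ 2)) atImInfty (𝓝 1) := by
  have h1 := (tendsto_delta_div).pow N
  rw [one_pow] at h1
  refine h1.congr fun z => ?_
  rw [div_pow, sq, pow_mul, WT1.tq_pow]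

end Fermat.Agent.S15.M1.Star
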