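import Fermat.Agent.S15.M1.Star.Line
import Fermat.Agent.S15.M1.Star.DeltaN
import Fermat.Agent.S15.M1.Star.Coset
import Fermat.Agent.S15.M1.Star.Const

/-!
# S15 / M1 / STAR : the product formula (assembly)
-/

set_option autoImplicit false
set_option linter.unusedSectionVars false

noncomputable section

namespace Fermat.Agent.S15.M1.Star

open UpperHalfPlane ModularForm Matrix Filter Topology Complex
open Fermat.Agent.S48 Fermat.Agent.S48.WT1 Fermat.Agent.S24 Fermat.Agent.S48.Full Fermat.Agent.ES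
open scoped MatrixGroups Manifold ModularForm Real

local notation "Δ" => ModularForm.discriminant

variable (N : ℕ) [NeZero N]

/-- transformation formula from a slash identity. -/
theorem apply_smul_of_slash {k : ℤ} {P Q : ℍ → ℂ} (A : SL(2, ℤ)) (h : P ∣[k] A = Q) (z : ℍ) :
    P (A • z) = Q z * denom A z ^ k := by
  have h1 := congrFun h z
  rw [ModularForm.SL_slash_apply] at h1
  rw [← h1, mul_assoc, ← zpow_add₀ (denom_ne_zero A z), neg_add_cancel, zpow_zero, mul_one]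

/-- the slash action on `RR`. -/
theorem RR_slash (A : SL(2, ℤ)) :
    RR N ∣[(0 : ℤ)] A = fun z =>
      lineG3 N (![0, 1] ᵥ* redSL N A) z ^ 4 * (deltaN N ∣[(12 : ℤ)] A) z / Δ z ^ N := by
  ext z
  have hd : denom A z ≠ 0 := denom_ne_zero A z
  rw [ModularForm.SL_slash_apply, neg_zero, zpow_zero, mul_one]
  unfold RR
  rw [apply_smul_of_slash A (lineG3_slash N ![0, 1] A) z,
    apply_smul_of_slash A (rfl : deltaN N ∣[(12 : ℤ)] A = _) z,
    levelOne_apply_smul A (levelOne_disc_slash A) z]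
  have hN1 : (1 : ℤ) ≤ N := by exact_mod_cast Nat.pos_of_ne_zero (NeZero.ne N)
  have e1 : (denom A z ^ (3 * ((N : ℤ) - 1))) ^ 4 * denom A z ^ (12 : ℤ)
      = (denom A z ^ (12 : ℤ)) ^ N := by
    rw [← zpow_natCast (denom A z ^ (3 * ((N : ℤ) - 1))) 4, ← _root_.zpow_mul, ← zpow_add₀ hd,
      ← zpow_natCast (denom A z ^ (12 : ℤ)) N, ← _root_.zpow_mul]
    congr 1
    push_cast
    ring
  have hne : (denom A z ^ (12 : ℤ)) ^ N ≠ 0 := pow_ne_zero _ (zpow_ne_zero _ hd)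
  rw [mul_pow, mul_pow, ← e1] at *
  rw [show lineG3 N (![0, 1] ᵥ* redSL N A) z ^ 4 * (denom A z ^ (3 * ((N : ℤ) - 1))) ^ 4 *
      ((deltaN N ∣[(12 : ℤ)] A) z * denom A z ^ (12 : ℤ)) =
      (lineG3 N (![0, 1] ᵥ* redSL N A) z ^ 4 * (deltaN N ∣[(12 : ℤ)] A) z) *
      ((denom A z ^ (3 * ((N : ℤ) - 1))) ^ 4 * denom A z ^ (12 : ℤ)) by ring]
  rw [mul_div_mul_right _ _ hne]

/-- PROOF: reindex the product by `k ↦ k * u` (an `Equiv` of `{k // k ≠ 0}`, inverse `k ↦ k * u⁻¹`;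
`Equiv.prod_comp`), `k • (u • v) = (k * u) • v` (`smul_smul`). -/
theorem lineG3_smul (u : (ZMod N)ˣ) (v : Fin 2 → ZMod N) :
    lineG3 N ((u : ZMod N) • v) = lineG3 N v := by
  funext z
  unfold lineG3
  let e : {k : ZMod N // k ≠ 0} ≃ {k : ZMod N // k ≠ 0} :=
    { toFun := fun k => ⟨k.1 * u, fun h => k.2 ((Units.mul_left_eq_zero u).1 h)⟩
      invFun := fun k => ⟨k.1 * (u⁻¹ : (ZMod N)ˣ), fun h => k.2 ((Units.mul_left_eq_zero u⁻¹).1 h)⟩
      left_inv := fun k => Subtype.ext (by simp)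
      right_inv := fun k => Subtype.ext (by simp) }
  rw [← Equiv.prod_comp e (fun k : {k : ZMod N // k ≠ 0} => G N 3 (k.1 • v) z)]
  refine Finset.prod_congr rfl fun k _ => ?_
  rw [smul_smul]
  rfl

/-- PROOF: `Gamma0_mem : (A 1 0 : ZMod N) = 0`; `det A = 1` gives `(A 0 0 : ZMod N) * A 1 1 = 1`, so
`A 1 1` is a unit `u` (`Units.mkOfMulEqOne`), `![0,1] ᵥ* redSL N A = ![A 1 0, A 1 1] = u • ![0,1]`. -/
theorem exists_unit_of_mem_Gamma0 {A : SL(2, ℤ)} (hA : A ∈ CongruenceSubgroup.Gamma0 N) :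
    ∃ u : (ZMod N)ˣ, (![0, 1] : Fin 2 → ZMod N) ᵥ* redSL N A = (u : ZMod N) • ![0, 1] := by
  have h10 : ((A 1 0 : ℤ) : ZMod N) = 0 := CongruenceSubgroup.Gamma0_mem.1 hA
  have hdet : A 0 0 * A 1 1 - A 0 1 * A 1 0 = 1 := by
    have := A.det_coe
    rwa [Matrix.det_fin_two] at this
  have h1 : ((A 1 1 : ℤ) : ZMod N) * ((A 0 0 : ℤ) : ZMod N) = 1 := by
    have := congrArg (fun x : ℤ => (x : ZMod N)) hdet
    simp only [Int.cast_sub, Int.cast_mul, Int.cast_one, h10, mul_zero, sub_zero] at this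
    rw [mul_comm]; exact this
  refine ⟨Units.mkOfMulEqOne _ _ h1, ?_⟩
  ext i
  fin_cases i <;> simp [redSL, vecMul, dotProduct, Fin.sum_univ_two, h10]

theorem RR_slash_Gamma0 {A : SL(2, ℤ)} (hA : A ∈ CongruenceSubgroup.Gamma0 N) :
    RR N ∣[(0 : ℤ)] A = RR N := by
  obtain ⟨u, hu⟩ := exists_unit_of_mem_Gamma0 N hA
  rw [RR_slash, hu, lineG3_smul, deltaN_slash_Gamma0 N hA]
  rfl

theorem RR_mdiff : MDiff (RR N) :=
  (((lineG3_mdiff N _).pow 4).mul (deltaN_mdiff N)).div (CuspForm.discriminant.holo'.pow N)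
    (fun z => pow_ne_zero N (ModularForm.discriminant_ne_zero z))

theorem tendsto_RR (hN : Odd N) : Tendsto (RR N) atImInfty (𝓝 (kap N)) := by
  have h1 := (tendsto_lineG3_zero N hN).pow 4
  have h2 := (tendsto_deltaN_div N).div (tendsto_delta_pow_div N) one_ne_zero
  have h3 := h1.mul h2
  rw [div_one, mul_one] at h3
  refine h3.congr fun z => ?_
  have ht : WT1.tq N z ^ (N ^ 2) ≠ 0 := pow_ne_zero _ (WT1.tq_ne_zero N z)
  unfold RR
  simp only [Pi.div_apply]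
  rw [div_div_div_cancel_right₀ ht, mul_div_assoc]

/-- `![0,1] S = ![1,0]`. -/
theorem vecMul_S : (![0, 1] : Fin 2 → ZMod N) ᵥ* redSL N ModularGroup.S = ![1, 0] := by
  ext i
  fin_cases i <;> simp [redSL, vecMul, dotProduct, Fin.sum_univ_two, ModularGroup.S]

theorem tendsto_RR_S (hN : Odd N) :
    ∃ c : ℂ, Tendsto (RR N ∣[(0 : ℤ)] ModularGroup.S) atImInfty (𝓝 c) := by
  obtain ⟨c, hc⟩ := tendsto_lineG3_one N hN
  have h2 := ((tendsto_delta_divH_div N).const_mul ((N : ℂ) ^ 12)⁻¹).div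
    (tendsto_delta_pow_div N) one_ne_zero
  refine ⟨_, (hc.mul h2).congr fun z => ?_⟩
  have ht : WT1.tq N z ≠ 0 := WT1.tq_ne_zero N z
  have hΔ : Δ z ^ N ≠ 0 := pow_ne_zero N (ModularForm.discriminant_ne_zero z)
  rw [RR_slash, vecMul_S, deltaN_slash_S]
  have hN1 : 1 ≤ N ^ 2 := Nat.one_le_pow _ _ (Nat.pos_of_ne_zero (NeZero.ne N))
  have e : WT1.tq N z ^ (N ^ 2) = WT1.tq N z ^ (N ^ 2 - 1) * WT1.tq N z := by
    rw [← pow_succ, Nat.sub_add_cancel hN1]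
  simp only [Pi.div_apply]
  rw [e]
  field_simp

/-- PROOF: `atImInfty = comap im atTop` (`UpperHalfPlane.atImInfty`), `(T^n • z).im = z.im`
(`UpperHalfPlane.modular_T_zpow_smul`, `UpperHalfPlane.vadd_im`). -/
theorem tendsto_T_zpow_smul (n : ℤ) :
    Tendsto (fun z : ℍ => ModularGroup.T ^ n • z) atImInfty atImInfty := by
  rw [UpperHalfPlane.atImInfty, tendsto_comap_iff]
  have : (UpperHalfPlane.im ∘ fun z : ℍ => ModularGroup.T ^ n • z) = UpperHalfPlane.im := by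
    funext z
    simp only [Function.comp_apply]
    rw [UpperHalfPlane.modular_T_zpow_smul, UpperHalfPlane.vadd_im]
  rw [this]
  exact tendsto_comap

theorem isMF_RR (hp : N.Prime) (hN : Odd N) : IsMF (CongruenceSubgroup.Gamma0 N) 0 (RR N) := by
  refine ⟨RR_mdiff N, fun γ hγ => RR_slash_Gamma0 N hγ, fun A => ?_⟩
  by_cases hA : A ∈ CongruenceSubgroup.Gamma0 N
  · rw [RR_slash_Gamma0 N hA, IsBoundedAtImInfty, BoundedAtFilter]
    exact (tendsto_RR N hN).isBigO_one ℝ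
  · obtain ⟨γ, hγ, n, rfl⟩ := exists_coset hp A hA
    obtain ⟨c, hc⟩ := tendsto_RR_S N hN
    rw [SlashAction.slash_mul, SlashAction.slash_mul, RR_slash_Gamma0 N hγ, IsBoundedAtImInfty,
      BoundedAtFilter]
    have h1 : Tendsto ((RR N ∣[(0 : ℤ)] ModularGroup.S) ∣[(0 : ℤ)] (ModularGroup.T ^ n))
        atImInfty (𝓝 c) := by
      refine (hc.comp (tendsto_T_zpow_smul n)).congr fun z => ?_
      rw [ModularForm.SL_slash_apply, neg_zero, zpow_zero, mul_one]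
      rfl
    exact h1.isBigO_one ℝ

theorem RR_eq (hp : N.Prime) (hN : Odd N) (z : ℍ) : RR N z = kap N := by
  obtain ⟨c, hc⟩ := (isMF_RR N hp hN).const_of_weight_zero
  have h1 : Tendsto (RR N) atImInfty (𝓝 c) := by
    rw [hc]
    exact tendsto_const_nhds
  rw [tendsto_nhds_unique (tendsto_RR N hN) h1, hc]

/-- **STAR.**  `(∏_{k ≠ 0} G_{3,(0,k)}(τ))⁴ Δ(Nτ) = Ck⁴⁽ᴺ⁻¹⁾ N⁻¹² Δ(τ)^N`. -/
theorem star (hp : N.Prime) (hN : Odd N) (z : ℍ) :
    lineG3 N ![0, 1] z ^ 4 * Δ (mulH N z) = Ck N 3 ^ (4 * (N - 1)) * ((N : ℂ) ^ 12)⁻¹ * Δ z ^ N := by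
  have h := RR_eq N hp hN z
  have hΔ : Δ z ^ N ≠ 0 := pow_ne_zero N (ModularForm.discriminant_ne_zero z)
  unfold RR deltaN at h
  rw [div_eq_iff hΔ, kap_eq N hN] at h
  exact h

end Fermat.Agent.S15.M1.Star
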