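import Fermat.Agent.S48.WT1.NonVanish
import Fermat.Agent.S48.Full.ScaleA2
import Fermat.Agent.ES.Basic

/-!
# S15 / M1 / STAR : the product formula  `∏_{t ∈ C∖0} ℘'(t)⁴ · Δ(L') = Δ(L)^N`  (definitions)

`N` an odd prime, `L = ℤτ + ℤ`, `C = ⟨1/N⟩`, `L' = L + ℤ/N`.  With the level `N` Eisenstein series
`G_{3,(a,b)}(τ) = ∑_{(c,d) ≡ (a,b)} (cτ+d)⁻³ = -℘'((aτ+b)/N)/(2N³)` of `S48/WT1` the identity reads

  `(∏_{k ≠ 0} G_{3,(0,k)}(τ))⁴ · Δ(Nτ) = Ck⁴⁽ᴺ⁻¹⁾ N⁻¹² Δ(τ)^N`.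

Proof: the quotient `RR` is holomorphic on `ℍ`, `Γ₀(N)`-invariant, has a limit at `i∞` and so has
`RR ∣ S` (leading exponents: `4 ∑ mu = N² - 1`, `Δ(τ/N) ~ t`, `Δ(τ)^N ~ t^{N²}`, `t = q^{1/N}`); so it
is a modular form of weight `0`, i.e. a constant (`ES.IsMF.const_of_weight_zero`).
-/

set_option autoImplicit false

noncomputable section

namespace Fermat.Agent.S15.M1.Star

open UpperHalfPlane ModularForm Matrix Filter Topology Complex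
open Fermat.Agent.S48.WT1 Fermat.Agent.S24 Fermat.Agent.S48.Full
open scoped MatrixGroups Manifold ModularForm Real

local notation "Δ" => ModularForm.discriminant

variable (N : ℕ) [NeZero N]

/-- `∏_{k ≠ 0} G_{3, k v}` : up to a constant, `∏_{t ∈ C ∖ 0} ℘'(t)` for the line `C = ⟨v⟩`. -/
def lineG3 (v : Fin 2 → ZMod N) : ℍ → ℂ :=
  fun z => ∏ k : {k : ZMod N // k ≠ 0}, G N 3 (k.1 • v) z

theorem lineG3_eq (v : Fin 2 → ZMod N) :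
    lineG3 N v = ∏ k : {k : ZMod N // k ≠ 0}, G N 3 (k.1 • v) := by
  funext z
  rw [Finset.prod_apply]
  rfl

/-- `τ ↦ Δ(Nτ)`. -/
def deltaN : ℍ → ℂ := fun z => Δ (mulH N z)

/-- the quotient `(∏ G₃)⁴ Δ(Nτ) / Δ(τ)^N`. -/
def RR : ℍ → ℂ := fun z => lineG3 N ![0, 1] z ^ 4 * deltaN N z / Δ z ^ N

/-- the value of the constant. -/
def kap : ℂ := (∏ k : {k : ZMod N // k ≠ 0}, Zc N 3 k.1) ^ 4

end Fermat.Agent.S15.M1.Star
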