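import Fermat.Agent.S15.M1.Star.Defs

/-!
# S15 / M1 / STAR : the product `lineG3` (slash action, holomorphy, leading terms)
-/

set_option autoImplicit false

noncomputable section

namespace Fermat.Agent.S15.M1.Star

open UpperHalfPlane ModularForm Matrix Filter Topology Complex
open Fermat.Agent.S48 Fermat.Agent.S48.WT1 Fermat.Agent.S24 Fermat.Agent.S48.Full
open scoped MatrixGroups Manifold ModularForm Real

variable (N : ℕ) [NeZero N]

/-- number of factors.  PROOF: as `WT1.NonVanish_card` (`Fintype.card_subtype_compl`,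
`Fintype.card_subtype_eq`, `ZMod.card`). -/
theorem card_ne_zero :
    ((Finset.univ : Finset {k : ZMod N // k ≠ 0}).card : ℤ) = (N : ℤ) - 1 := by
  classical
  have h1 : Fintype.card {k : ZMod N // k ≠ 0} = Fintype.card (ZMod N) - 1 := by
    rw [Fintype.card_subtype_compl, Fintype.card_subtype_eq]
  rw [Finset.card_univ, h1, ZMod.card, Nat.cast_sub (Nat.pos_of_ne_zero (NeZero.ne N))]
  push_cast
  ring

/-- PROOF: copy of `WT1.normG3_slash` (no reindexing needed): `lineG3_eq`, `← card_ne_zero`,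
`ModularForm.SL_slash`, `ModularForm.prod_slash`, `|det| = 1`, then `G_slash` on every factor and
`Matrix.smul_vecMul` : `(k • v) ᵥ* M = k • (v ᵥ* M)`. -/
theorem lineG3_slash (v : Fin 2 → ZMod N) (A : SL(2, ℤ)) :
    lineG3 N v ∣[(3 * ((N : ℤ) - 1))] A = lineG3 N (v ᵥ* redSL N A) := by
  rw [lineG3_eq, lineG3_eq, ← card_ne_zero, ModularForm.SL_slash, ModularForm.prod_slash]
  have hdet : |((A : GL (Fin 2) ℝ).det.val : ℝ)| = 1 := by simp
  rw [hdet, _root_.one_zpow, one_smul]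
  refine Finset.prod_congr rfl fun k _ => ?_
  rw [← ModularForm.SL_slash, G_slash, Matrix.smul_vecMul]

theorem lineG3_mdiff (v : Fin 2 → ZMod N) : MDiff (lineG3 N v) := by
  rw [lineG3_eq]
  exact MDifferentiable.prod fun k _ => G_mdiff N le_rfl _

/-- PROOF: `tendsto_finsetProd`; for each `k`, `tendsto_G_div N hN le_rfl 0 k` gives a limit `c` of
`G N 3 ![0,k] z / WT1.tq N z ^ mu N 0` with `c = Zc N 3 k`; `mu N 0 = 0` (`NonVanish_mu_zero`),
`k • ![0,1] = ![0,k]`. -/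
theorem tendsto_lineG3_zero (hN : Odd N) :
    Tendsto (lineG3 N ![0, 1]) atImInfty (𝓝 (∏ k : {k : ZMod N // k ≠ 0}, Zc N 3 k.1)) := by
  unfold lineG3
  refine tendsto_finsetProd _ fun k _ => ?_
  obtain ⟨c, hc, -, h2⟩ := tendsto_G_div N hN (k := 3) le_rfl 0 k.1
  rw [h2 rfl] at hc
  have e : k.1 • (![0, 1] : Fin 2 → ZMod N) = ![0, k.1] := by
    funext i
    fin_cases i <;> simp
  rw [e]
  refine hc.congr fun z => ?_
  rw [NonVanish_mu_zero, pow_zero, div_one]
  rfl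

/-- PROOF: as `WT1.NonVanish_sum_mu`: `Finset.sum_subtype` / `Finset.sum_erase` (`mu N 0 = 0`) and
`WT1.sum_mu N hN : 4 * ∑ a, mu N a = N ^ 2 - 1`. -/
theorem four_mul_sum_mu (hN : Odd N) :
    4 * ∑ k : {k : ZMod N // k ≠ 0}, mu N k.1 = N ^ 2 - 1 := by
  classical
  have h1 : ∑ k : {k : ZMod N // k ≠ 0}, mu N k.1
      = ∑ k ∈ (Finset.univ : Finset (ZMod N)).erase 0, mu N k :=
    (Finset.sum_subtype ((Finset.univ : Finset (ZMod N)).erase 0) (p := fun k => k ≠ 0)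
      (fun k => by simp) fun k : ZMod N => mu N k).symm
  have h2 : ∑ k ∈ (Finset.univ : Finset (ZMod N)).erase 0, mu N k = ∑ k : ZMod N, mu N k :=
    Finset.sum_erase _ (NonVanish_mu_zero N)
  rw [h1, h2, sum_mu N hN]

/-- PROOF: as `WT1.tendsto_normG3`: choose the limits `c k` of
`G N 3 (k • ![1,0]) z / WT1.tq N z ^ mu N k` (`tendsto_G3_div N hN (w := k • ![1,0])`, `k • ![1,0] ≠ 0`
because its `0`-th coordinate is `k ≠ 0`; `(k • ![1,0]) 0 = k`); `tendsto_finsetProd`, `.pow 4`;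
`Finset.prod_div_distrib`, `Finset.prod_pow_eq_pow_sum`, `← pow_mul`, `four_mul_sum_mu`. -/
theorem tendsto_lineG3_one (hN : Odd N) :
    ∃ c : ℂ, Tendsto (fun z : ℍ => lineG3 N ![1, 0] z ^ 4 / WT1.tq N z ^ (N ^ 2 - 1)) atImInfty (𝓝 c) := by
  have hne : ∀ k : {k : ZMod N // k ≠ 0}, k.1 • (![1, 0] : Fin 2 → ZMod N) ≠ 0 := by
    intro k h
    have := congrFun h 0
    simp at this
    exact k.2 this
  choose c _ hc using fun k : {k : ZMod N // k ≠ 0} => tendsto_G3_div N hN (hne k)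
  refine ⟨(∏ k, c k) ^ 4, ?_⟩
  have h1 : (fun z : ℍ => lineG3 N ![1, 0] z ^ 4 / WT1.tq N z ^ (N ^ 2 - 1))
      = fun z : ℍ => (∏ k : {k : ZMod N // k ≠ 0},
          G N 3 (k.1 • ![1, 0]) z / WT1.tq N z ^ mu N ((k.1 • (![1, 0] : Fin 2 → ZMod N)) 0)) ^ 4 := by
    funext z
    have e : ∀ k : {k : ZMod N // k ≠ 0}, (k.1 • (![1, 0] : Fin 2 → ZMod N)) 0 = k.1 := by
      intro k
      simp
    simp only [e]
    rw [Finset.prod_div_distrib, Finset.prod_pow_eq_pow_sum, div_pow, ← pow_mul, mul_comm _ 4,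
      four_mul_sum_mu N hN]
    rfl
  rw [h1]
  exact (tendsto_finsetProd _ fun k _ => hc k).pow 4

end Fermat.Agent.S15.M1.Star
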