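import Fermat.Agent.S15.M1.Star.Defs

/-!
# S15 / M1 / STAR : `℘'` at the `N`-division points is the level `N` Eisenstein series of weight 3
-/

set_option autoImplicit false

noncomputable section

namespace Fermat.Agent.S15.M1.Star

open UpperHalfPlane ModularForm Matrix Filter Topology Complex EisensteinSeries
open Fermat.Agent.S48 Fermat.Agent.S48.WT1 Fermat.Agent.GAL.Tors.TwistedEis
open scoped MatrixGroups Manifold ModularForm Real
open PeriodPair

variable (N : ℕ) [NeZero N]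

/-- **`℘'((aτ + b)/N) = -2 N³ G_{3,(a,b)}(τ)`** for the lattice `ℤτ + ℤ`.

PROOF.  `℘'[L] z = - ∑' l : L.lattice, 2 / (z - l)^3` (`PeriodPair.derivWeierstrassP`, unfold).
Reindex by `L.latticeEquivProd.symm : ℤ × ℤ ≃ L.lattice` (`Equiv.tsum_eq`,
`PeriodPair.latticeEquiv_symm_apply : (symm x).1 = x.1 * ω₁ + x.2 * ω₂`): with `z = (aτ+b)/N`,
`2 / (z - (mτ+n))^3 = 2 N^3 / ((a - N m) τ + (b - N n))^3`.
On the other side `G N 3 ![a,b] τ = ∑' v : Fin 2 → ℤ, ind N ![a,b] v * eisSummand 3 v τ`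
(`WT1.G`, `gEis`; `eisSummand k v z = (v 0 * z + v 1)^(-k)`); the support of the summand is contained in the
range of the injective map `e : ℤ × ℤ → (Fin 2 → ℤ)`, `e (m,n) = ![a - N m, b - N n]`
(`Function.Injective.tsum_eq`; `ind = 1` on the range, and `redVec N v = ![a,b]` implies `N ∣ a - v 0`,
`N ∣ b - v 1` by `ZMod.intCast_eq_intCast_iff_dvd_sub`), exactly as in `WT1.inner_sum`.
Finish with `tsum_mul_left`. -/
theorem wp'_eq (L : PeriodPair) (τ : ℍ) (h₁ : L.ω₁ = τ) (h₂ : L.ω₂ = 1) (a b : ℤ) :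
    ℘'[L] (((a : ℂ) * τ + b) / N) = -2 * (N : ℂ) ^ 3 * G N 3 ![(a : ZMod N), (b : ZMod N)] τ := by
  have hN : (N : ℂ) ≠ 0 := Nat.cast_ne_zero.2 (NeZero.ne N)
  have hNz : (N : ℤ) ≠ 0 := Nat.cast_ne_zero.2 (NeZero.ne N)
  let e : ℤ × ℤ → (Fin 2 → ℤ) := fun p => ![a - N * p.1, b - N * p.2]
  have he : Function.Injective e := by
    intro p q h
    have h0 := congrFun h 0
    have h1 := congrFun h 1
    simp only [e, Matrix.cons_val_zero, Matrix.cons_val_one] at h0 h1
    have h0' : (N : ℤ) * p.1 = N * q.1 := by linarith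
    have h1' : (N : ℤ) * p.2 = N * q.2 := by linarith
    exact Prod.ext (mul_left_cancel₀ hNz h0') (mul_left_cancel₀ hNz h1')
  have hsupp : Function.support
      (fun v : Fin 2 → ℤ => ind N ![(a : ZMod N), (b : ZMod N)] v * eisSummand 3 v τ)
      ⊆ Set.range e := by
    intro v hv
    have hred : redVec N v = ![(a : ZMod N), (b : ZMod N)] := by
      by_contra h
      apply hv
      simp only [ind, if_neg h, zero_mul]
    have h0 : ((v 0 : ℤ) : ZMod N) = a := congrFun hred 0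
    have h1 : ((v 1 : ℤ) : ZMod N) = b := congrFun hred 1
    obtain ⟨c, hc⟩ := (ZMod.intCast_eq_intCast_iff_dvd_sub _ _ _).1 h0
    obtain ⟨d, hd⟩ := (ZMod.intCast_eq_intCast_iff_dvd_sub _ _ _).1 h1
    refine ⟨(c, d), ?_⟩
    ext i
    fin_cases i
    · show a - N * c = v 0
      rw [← hc]; ring
    · show b - N * d = v 1
      rw [← hd]; ring
  unfold WT1.G gEis derivWeierstrassP
  rw [← he.tsum_eq hsupp, ← L.latticeEquivProd.symm.toEquiv.tsum_eq, ← tsum_mul_left, ← tsum_neg]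
  refine tsum_congr fun p => ?_
  have hind : ind N ![(a : ZMod N), (b : ZMod N)] (e p) = 1 := by
    unfold ind
    rw [if_pos]
    ext i
    fin_cases i <;> simp [redVec, e]
  rw [hind, one_mul]
  show -(2 / (((a : ℂ) * τ + b) / N - (L.latticeEquivProd.symm p).1) ^ 3) = _
  rw [L.latticeEquiv_symm_apply, h₁, h₂, eisSummand]
  simp only [e, Matrix.cons_val_zero, Matrix.cons_val_one]
  have h3 : ((a : ℂ) * τ + b) / N - ((p.1 : ℂ) * τ + (p.2 : ℂ) * 1)
      = (((a - N * p.1 : ℤ) : ℂ) * τ + ((b - N * p.2 : ℤ) : ℂ)) / N := by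
    push_cast
    field_simp
    ring
  rw [h3, div_pow, _root_.zpow_neg]
  have : ((((a - N * p.1 : ℤ) : ℂ) * τ + ((b - N * p.2 : ℤ) : ℂ)) ^ (3 : ℤ))
      = (((a - N * p.1 : ℤ) : ℂ) * τ + ((b - N * p.2 : ℤ) : ℂ)) ^ 3 := by
    norm_cast
  rw [this]
  rw [div_div_eq_mul_div, div_eq_mul_inv]
  ring

end Fermat.Agent.S15.M1.Star
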